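import Mathlib

/-!
The cubic field `ℚ(β)`, `β³ = 2β² - 2`, of discriminant `-44`, in coordinates `a + bβ + cβ²`.
-/

set_option autoImplicit false

namespace FermatLib.Descent.Eleven

open Polynomial NumberField Module

/-- The cubic `X³ - 2X² + 2` over `ℤ`. -/
noncomputable def cubicInt : ℤ[X] := X ^ 3 - C 2 * X ^ 2 + C 2

/-- The cubic `X³ - 2X² + 2` over `ℚ`. -/
noncomputable def cubicRat : ℚ[X] := X ^ 3 - C 2 * X ^ 2 + C 2

lemma cubicInt_monic : cubicInt.Monic := by
  unfold cubicInt; monicity!

lemma cubicRat_monic : cubicRat.Monic := by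
  unfold cubicRat; monicity!

lemma cubicInt_natDegree : cubicInt.natDegree = 3 := by
  unfold cubicInt; compute_degree!

lemma cubicRat_natDegree : cubicRat.natDegree = 3 := by
  unfold cubicRat; compute_degree!

lemma cubicInt_map : cubicInt.map (algebraMap ℤ ℚ) = cubicRat := by
  simp [cubicInt, cubicRat, Polynomial.map_add, Polynomial.map_sub, Polynomial.map_mul, map_ofNat]

lemma cubicInt_irreducible : Irreducible cubicInt := by
  refine IsEisensteinAt.irreducible (𝓟 := Ideal.span {(2 : ℤ)}) ?_
    ((Ideal.span_singleton_prime two_ne_zero).2 Int.prime_two) cubicInt_monic.isPrimitive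
    (by rw [cubicInt_natDegree]; norm_num)
  refine ⟨?_, ?_, ?_⟩
  · rw [cubicInt_monic.leadingCoeff, Ideal.mem_span_singleton]; norm_num
  · intro n hn
    rw [cubicInt_natDegree] at hn
    interval_cases n <;>
      simp [cubicInt, coeff_X_pow]
  · rw [Ideal.span_singleton_pow, Ideal.mem_span_singleton]
    simp [cubicInt, coeff_X_pow]

instance cubicRat_irreducible : Fact (Irreducible cubicRat) :=
  ⟨cubicInt_map ▸
    (cubicInt_monic.irreducible_iff_irreducible_map_fraction_map).1 cubicInt_irreducible⟩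

/-- The cubic field. -/
abbrev Cubic : Type := AdjoinRoot cubicRat

/-- The generator. -/
noncomputable def beta : Cubic := AdjoinRoot.root cubicRat

lemma beta_cube : beta ^ 3 = 2 * beta ^ 2 - 2 := by
  have h : aeval beta cubicRat = 0 := by
    rw [beta, aeval_def,
      show algebraMap ℚ Cubic = AdjoinRoot.of cubicRat from Subsingleton.elim _ _]
    exact AdjoinRoot.eval₂_root cubicRat
  simp only [cubicRat, map_add, map_sub, map_mul, map_pow, aeval_X, aeval_C] at h
  simp only [map_ofNat] at h
  linear_combination h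

/-- The power basis as a basis indexed by `Fin 3`. -/
noncomputable def cubicBasis : Basis (Fin 3) ℚ Cubic :=
  (AdjoinRoot.powerBasis cubicRat_monic.ne_zero).basis.reindex
    (finCongr (by rw [AdjoinRoot.powerBasis_dim, cubicRat_natDegree]))

lemma cubicBasis_apply (i : Fin 3) : cubicBasis i = beta ^ (i : ℕ) := by
  simp [cubicBasis, beta]

/-- Coordinates. -/
noncomputable def el (a b c : ℚ) : Cubic :=
  algebraMap ℚ Cubic a + algebraMap ℚ Cubic b * beta + algebraMap ℚ Cubic c * beta ^ 2

lemma el_eq_symm (a b c : ℚ) : el a b c = cubicBasis.equivFun.symm ![a, b, c] := by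
  rw [Basis.equivFun_symm_apply, Fin.sum_univ_three]
  simp [el, cubicBasis_apply, Algebra.smul_def]

lemma el_repr (a b c : ℚ) : ⇑(cubicBasis.repr (el a b c)) = ![a, b, c] := by
  rw [el_eq_symm, ← Basis.equivFun_apply, LinearEquiv.apply_symm_apply]

lemma el_inj {a b c a' b' c' : ℚ} :
    el a b c = el a' b' c' ↔ a = a' ∧ b = b' ∧ c = c' := by
  refine ⟨fun h => ?_, fun ⟨h1, h2, h3⟩ => by rw [h1, h2, h3]⟩
  have := congrArg (fun z => ⇑(cubicBasis.repr z)) h
  simp only [el_repr] at this
  exact ⟨by simpa using congrFun this 0, by simpa using congrFun this 1,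
    by simpa using congrFun this 2⟩

lemma exists_el (z : Cubic) : ∃ a b c : ℚ, z = el a b c := by
  refine ⟨cubicBasis.repr z 0, cubicBasis.repr z 1, cubicBasis.repr z 2, ?_⟩
  rw [el_eq_symm, LinearEquiv.eq_symm_apply]
  ext i
  fin_cases i <;> simp

lemma el_mul (a b c a' b' c' : ℚ) :
    el a b c * el a' b' c' =
      el (a * a' - 2 * (b * c' + c * b') - 4 * (c * c'))
        (a * b' + b * a' - 2 * (c * c'))
        (a * c' + b * b' + c * a' + 2 * (b * c' + c * b') + 4 * (c * c')) := by
  simp only [el, map_add, map_sub, map_mul, map_ofNat]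
  linear_combination (algebraMap ℚ Cubic b * algebraMap ℚ Cubic c' +
    algebraMap ℚ Cubic c * algebraMap ℚ Cubic b' +
    algebraMap ℚ Cubic c * algebraMap ℚ Cubic c' * (beta + 2)) * beta_cube

lemma el_zero : el 0 0 0 = 0 := by simp [el]
lemma el_one : el 1 0 0 = 1 := by simp [el]
lemma el_beta : el 0 1 0 = beta := by simp [el]
lemma el_beta_sq : el 0 0 1 = beta ^ 2 := by simp [el]

lemma el_neg (a b c : ℚ) : -el a b c = el (-a) (-b) (-c) := by
  simp only [el, map_neg]; ring

lemma el_scalar (q : ℚ) : algebraMap ℚ Cubic q = el q 0 0 := by simp [el]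

lemma norm_el (a b c : ℚ) :
    Algebra.norm ℚ (el a b c) =
      a ^ 3 - 2 * b ^ 3 + 4 * c ^ 3 + 2 * a ^ 2 * b + 4 * a ^ 2 * c + 6 * a * b * c
        + 8 * a * c ^ 2 - 4 * b ^ 2 * c := by
  have h0 : cubicBasis 0 = el 1 0 0 := by simp [cubicBasis_apply, el_one]
  have h1 : cubicBasis 1 = el 0 1 0 := by simp [cubicBasis_apply, el_beta]
  have h2 : cubicBasis 2 = el 0 0 1 := by simp [cubicBasis_apply, el_beta_sq]
  rw [Algebra.norm_eq_matrix_det cubicBasis, Matrix.det_fin_three]
  simp only [Algebra.leftMulMatrix_eq_repr_mul, h0, h1, h2, el_mul, el_repr, Matrix.cons_val_zero,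
    Matrix.cons_val_one, Matrix.cons_val]
  ring

lemma finrank_cubic : finrank ℚ Cubic = 3 := by
  rw [finrank_eq_card_basis cubicBasis, Fintype.card_fin]

end FermatLib.Descent.Eleven
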