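import Fermat.Agent.Descent.Eleven.CubicRing

/-!
2-adic obstructions: the unit `1 - β` is not a square, and `(1 - β) w²` is never of the
form `d² + m(β² - 2β)` with `m, d` coprime.
-/

set_option autoImplicit false

namespace FermatLib.Descent.Eleven

open NumberField Module

/-- The coordinates of a square. -/
def sqCoord {R : Type*} [CommRing R] (a b c : R) : R × R × R :=
  (a ^ 2 - 4 * b * c - 4 * c ^ 2, 2 * a * b - 2 * c ^ 2, 2 * a * c + b ^ 2 + 4 * b * c + 4 * c ^ 2)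

/-- The coordinates of `(1 - β)` times a square. -/
def etaCoord {R : Type*} [CommRing R] (a b c : R) : R × R × R :=
  let s := sqCoord a b c
  (s.1 + 2 * s.2.2, s.2.1 - s.1, -s.2.1 - s.2.2)

lemma coord_mod_four_even : ∀ a b c : ZMod 4,
    (sqCoord a b c = (0, 0, 0) ∨ etaCoord a b c = (0, 0, 0)) →
      2 * a = 0 ∧ 2 * b = 0 ∧ 2 * c = 0 := by decide

lemma eta_not_sq_mod_four : ∀ a b c : ZMod 4, sqCoord a b c ≠ (1, -1, 0) := by decide

lemma etaCoord_mod_four : ∀ a b c : ZMod 4,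
    (etaCoord a b c).2.1 + 2 * (etaCoord a b c).2.2 = 0 →
      (etaCoord a b c).1 ≠ 1 ∧
        ((etaCoord a b c).1 = 0 → 2 * (etaCoord a b c).2.2 = 0) := by decide

lemma coord_cast (a b c : ℤ) :
    sqCoord (a : ZMod 4) b c =
      (((sqCoord a b c).1 : ZMod 4), ((sqCoord a b c).2.1 : ZMod 4), ((sqCoord a b c).2.2 : ZMod 4))
    ∧ etaCoord (a : ZMod 4) b c =
      (((etaCoord a b c).1 : ZMod 4), ((etaCoord a b c).2.1 : ZMod 4),
        ((etaCoord a b c).2.2 : ZMod 4)) := by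
  simp [sqCoord, etaCoord]

lemma even_of_two_mul_zmod {a : ℤ} (h : 2 * (a : ZMod 4) = 0) : 2 ∣ a := by
  have h' : ((2 * a : ℤ) : ZMod 4) = 0 := by push_cast; exact h
  rw [ZMod.intCast_zmod_eq_zero_iff_dvd] at h'
  omega

/-- If the coordinates of a (twisted) square are divisible by `4`, divide everything by `2`. -/
lemma halve_coord (k e₀ e₁ e₂ a b c : ℤ) :
    (sqCoord a b c = ((2 * k) ^ 2 * e₀, (2 * k) ^ 2 * e₁, (2 * k) ^ 2 * e₂) →
      ∃ a' b' c', sqCoord a' b' c' = (k ^ 2 * e₀, k ^ 2 * e₁, k ^ 2 * e₂)) ∧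
    (etaCoord a b c = ((2 * k) ^ 2 * e₀, (2 * k) ^ 2 * e₁, (2 * k) ^ 2 * e₂) →
      ∃ a' b' c', etaCoord a' b' c' = (k ^ 2 * e₀, k ^ 2 * e₁, k ^ 2 * e₂)) := by
  have h4 : ∀ x : ℤ, (((2 * k) ^ 2 * x : ℤ) : ZMod 4) = 0 := fun x => by
    rw [ZMod.intCast_zmod_eq_zero_iff_dvd]; exact ⟨k ^ 2 * x, by push_cast; ring⟩
  constructor
  · intro h
    obtain ⟨ha, hb, hc⟩ := coord_mod_four_even a b c
      (Or.inl (by rw [(coord_cast a b c).1, h]; simp only [h4]))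
    obtain ⟨a', rfl⟩ := even_of_two_mul_zmod ha
    obtain ⟨b', rfl⟩ := even_of_two_mul_zmod hb
    obtain ⟨c', rfl⟩ := even_of_two_mul_zmod hc
    simp only [sqCoord, Prod.mk.injEq] at h ⊢
    exact ⟨a', b', c', by linarith [h.1], by linarith [h.2.1], by linarith [h.2.2]⟩
  · intro h
    obtain ⟨ha, hb, hc⟩ := coord_mod_four_even a b c
      (Or.inr (by rw [(coord_cast a b c).2, h]; simp only [h4]))
    obtain ⟨a', rfl⟩ := even_of_two_mul_zmod ha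
    obtain ⟨b', rfl⟩ := even_of_two_mul_zmod hb
    obtain ⟨c', rfl⟩ := even_of_two_mul_zmod hc
    simp only [sqCoord, etaCoord, Prod.mk.injEq] at h ⊢
    exact ⟨a', b', c', by linarith [h.1], by linarith [h.2.1], by linarith [h.2.2]⟩

/-- The unit `η = 1 - β`. -/
noncomputable def etaUnit : (𝓞 Cubic)ˣ where
  val := 1 - bO
  inv := bO ^ 2 - bO - 1
  val_inv := by linear_combination -bO_cube
  inv_val := by linear_combination -bO_cube

@[simp] lemma coe_etaUnit : ((etaUnit : 𝓞 Cubic) : Cubic) = el 1 (-1) 0 := by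
  simp [etaUnit, el, sub_eq_add_neg]

/-- Coordinates of algebraic integers lie in `(1/44) ℤ`. -/
lemma exists_int_coord (w : 𝓞 Cubic) :
    ∃ a b c : ℤ, 44 * (w : Cubic) = el a b c := by
  obtain ⟨a, b, c, hw⟩ := exists_el (w : Cubic)
  set t₀ := Algebra.trace ℤ (𝓞 Cubic) w with ht₀
  set t₁ := Algebra.trace ℤ (𝓞 Cubic) (w * bO) with ht₁
  set t₂ := Algebra.trace ℤ (𝓞 Cubic) (w * bO ^ 2) with ht₂
  have e₀ : (t₀ : ℚ) = 3 * a + 2 * b + 4 * c := by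
    rw [ht₀, Algebra.coe_trace_int, hw, trace_el]
  have e₁ : (t₁ : ℚ) = 2 * a + 4 * b + 2 * c := by
    rw [ht₁, Algebra.coe_trace_int]
    simp only [map_mul, coe_bO, hw, ← el_beta, el_mul, trace_el]
    ring
  have e₂ : (t₂ : ℚ) = 4 * a + 2 * b := by
    rw [ht₂, Algebra.coe_trace_int]
    simp only [map_mul, map_pow, coe_bO, hw, ← el_beta_sq, el_mul, trace_el]
    ring
  refine ⟨4 * t₀ - 8 * t₁ + 12 * t₂, -8 * t₀ + 16 * t₁ - 2 * t₂, 12 * t₀ - 2 * t₁ - 8 * t₂, ?_⟩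
  rw [hw, show (44 : Cubic) = el 44 0 0 by rw [← el_scalar, map_ofNat], el_mul, el_inj]
  push_cast
  refine ⟨?_, ?_, ?_⟩ <;> linarith

lemma el_sq (a b c : ℚ) :
    el a b c ^ 2 = el (sqCoord a b c).1 (sqCoord a b c).2.1 (sqCoord a b c).2.2 := by
  rw [sq, el_mul, el_inj]
  simp only [sqCoord]
  refine ⟨?_, ?_, ?_⟩ <;> ring

lemma eta_mul_el_sq (a b c : ℚ) :
    el 1 (-1) 0 * el a b c ^ 2 =
      el (etaCoord a b c).1 (etaCoord a b c).2.1 (etaCoord a b c).2.2 := by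
  rw [el_sq, el_mul, el_inj]
  simp only [etaCoord]
  refine ⟨?_, ?_, ?_⟩ <;> ring

lemma scaled_el (t a b c : ℚ) : (algebraMap ℚ Cubic t) * el a b c = el (t * a) (t * b) (t * c) := by
  rw [el_scalar, el_mul, el_inj]
  refine ⟨?_, ?_, ?_⟩ <;> ring

lemma etaUnit_not_square (s : 𝓞 Cubic) : (etaUnit : 𝓞 Cubic) ≠ s ^ 2 := by
  intro h
  obtain ⟨a, b, c, hs⟩ := exists_int_coord s
  have h1 : (el 1 (-1) 0) = (s : Cubic) ^ 2 := by rw [← coe_etaUnit, h]; simp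
  have h2 : el (a : ℚ) b c ^ 2 = algebraMap ℚ Cubic (44 ^ 2) * el 1 (-1) 0 := by
    rw [← hs, h1, map_pow, map_ofNat]; ring
  rw [el_sq, scaled_el, el_inj] at h2
  have h3 : sqCoord a b c = ((2 * 22) ^ 2 * 1, (2 * 22) ^ 2 * (-1), (2 * 22) ^ 2 * 0) := by
    simp only [sqCoord, Prod.mk.injEq] at h2 ⊢
    norm_num at h2 ⊢
    exact ⟨by exact_mod_cast h2.1, by exact_mod_cast h2.2.1, by exact_mod_cast h2.2.2⟩
  obtain ⟨a, b, c, h3⟩ := (halve_coord 22 1 (-1) 0 a b c).1 h3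
  obtain ⟨a, b, c, h3⟩ := (halve_coord 11 1 (-1) 0 a b c).1 (h3.trans (by norm_num))
  have := eta_not_sq_mod_four a b c
  rw [(coord_cast a b c).1, h3] at this
  exact this (by decide)

lemma eta_sq_ne_param (m d : ℤ) (hco : IsCoprime m d) (w : 𝓞 Cubic) :
    el 1 (-1) 0 * (w : Cubic) ^ 2 ≠ el ((d : ℚ) ^ 2) (-2 * m) m := by
  intro h
  obtain ⟨a, b, c, hw⟩ := exists_int_coord w
  have h2 : el 1 (-1) 0 * el (a : ℚ) b c ^ 2 =
      algebraMap ℚ Cubic (44 ^ 2) * el ((d : ℚ) ^ 2) (-2 * m) m := by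
    rw [← hw, ← h, map_pow, map_ofNat]; ring
  rw [eta_mul_el_sq, scaled_el, el_inj] at h2
  have h3 : etaCoord a b c =
      ((2 * 22) ^ 2 * d ^ 2, (2 * 22) ^ 2 * (-2 * m), (2 * 22) ^ 2 * m) := by
    simp only [sqCoord, etaCoord, Prod.mk.injEq] at h2 ⊢
    norm_num at h2 ⊢
    exact ⟨by exact_mod_cast h2.1, by exact_mod_cast h2.2.1, by exact_mod_cast h2.2.2⟩
  obtain ⟨a, b, c, h3⟩ := (halve_coord 22 _ _ _ a b c).2 h3
  obtain ⟨a, b, c, h3⟩ := (halve_coord 11 (d ^ 2) (-2 * m) m a b c).2 (h3.trans (by norm_num))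
  have hA := etaCoord_mod_four a b c
  rw [(coord_cast a b c).2, h3] at hA
  push_cast at hA
  rw [show (121 : ZMod 4) = 1 from rfl, one_mul, one_mul] at hA
  obtain ⟨hA₁, hA₂⟩ := hA (by ring)
  rcases Int.even_or_odd d with ⟨k, rfl⟩ | ⟨k, rfl⟩
  · have hm := hA₂ (by push_cast; ring_nf; rw [show (4 : ZMod 4) = 0 from rfl, mul_zero])
    have hu : IsUnit (2 : ℤ) :=
      hco.isUnit_of_dvd' (even_of_two_mul_zmod hm) ⟨k, by ring⟩
    simp [Int.isUnit_iff] at hu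
  · apply hA₁
    push_cast
    ring_nf
    simp [show (4 : ZMod 4) = 0 from rfl]

end FermatLib.Descent.Eleven
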