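import Fermat.Agent.Descent.Eleven.CubicField

/-!
The ring of integers of the cubic field of discriminant `-44`: it is a principal ideal ring,
and its units modulo squares are `±1, ±(1 - β)`.
-/

set_option autoImplicit false

namespace FermatLib.Descent.Eleven

open Polynomial NumberField Module

lemma isIntegral_beta : IsIntegral ℤ beta := by
  refine ⟨cubicInt, cubicInt_monic, ?_⟩
  simp only [cubicInt, eval₂_add, eval₂_sub, eval₂_mul, eval₂_X_pow, eval₂_ofNat,
    map_ofNat]
  linear_combination beta_cube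

/-- `β` as an algebraic integer. -/
noncomputable def bO : 𝓞 Cubic := ⟨beta, isIntegral_beta⟩

@[simp] lemma coe_bO : ((bO : 𝓞 Cubic) : Cubic) = beta := rfl

lemma bO_cube : bO ^ 3 = 2 * bO ^ 2 - 2 := by
  apply RingOfIntegers.ext
  simp only [map_pow, map_mul, map_sub, map_ofNat, coe_bO]
  exact beta_cube

lemma trace_el (a b c : ℚ) : Algebra.trace ℚ Cubic (el a b c) = 3 * a + 2 * b + 4 * c := by
  have h0 : cubicBasis 0 = el 1 0 0 := by simp [cubicBasis_apply, el_one]
  have h1 : cubicBasis 1 = el 0 1 0 := by simp [cubicBasis_apply, el_beta]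
  have h2 : cubicBasis 2 = el 0 0 1 := by simp [cubicBasis_apply, el_beta_sq]
  rw [Algebra.trace_eq_matrix_trace cubicBasis, Matrix.trace_fin_three]
  simp only [Algebra.leftMulMatrix_eq_repr_mul, h0, h1, h2, el_mul, el_repr, Matrix.cons_val_zero,
    Matrix.cons_val_one, Matrix.cons_val]
  ring

/-- `1, β, β²` in the ring of integers. -/
noncomputable def powFamily : Fin 3 → 𝓞 Cubic := ![1, bO, bO ^ 2]

lemma discr_powFamily : Algebra.discr ℤ powFamily = -44 := by
  have key : ∀ i j : Fin 3, ((Algebra.traceMatrix ℤ powFamily i j : ℤ) : ℚ) =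
      (![![3, 2, 4], ![2, 4, 2], ![4, 2, 0]] : Fin 3 → Fin 3 → ℚ) i j := by
    intro i j
    rw [Algebra.traceMatrix_apply, Algebra.traceForm_apply, Algebra.coe_trace_int]
    fin_cases i <;> fin_cases j <;>
      simp [powFamily, ← el_one, ← el_beta, sq, el_mul, trace_el] <;> norm_num
  rw [← Int.cast_inj (α := ℚ), Algebra.discr_def, Matrix.det_fin_three]
  push_cast
  simp only [key]
  simp only [Matrix.cons_val_zero, Matrix.cons_val_one, Matrix.cons_val]
  norm_num

lemma discr_cubic_neg_and_bound : discr Cubic < 0 ∧ |discr Cubic| ≤ 44 := by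
  classical
  have hcard : Fintype.card (Free.ChooseBasisIndex ℤ (𝓞 Cubic)) = 3 := by
    rw [← finrank_eq_card_basis (RingOfIntegers.basis Cubic), RingOfIntegers.rank, finrank_cubic]
  let B := (RingOfIntegers.basis Cubic).reindex (Fintype.equivFinOfCardEq hcard)
  have h := Algebra.discr_of_matrix_vecMul (A := ℤ) (⇑B) (B.toMatrix powFamily)
  rw [Basis.toMatrix_map_vecMul, discr_eq_discr Cubic B, discr_powFamily] at h
  set r := (B.toMatrix powFamily).det
  have hr : r ≠ 0 := by intro h0; simp [h0] at h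
  have hr1 : 1 ≤ r ^ 2 := by
    have := sq_pos_of_ne_zero hr
    omega
  have hneg : discr Cubic < 0 := by nlinarith
  refine ⟨hneg, ?_⟩
  rw [abs_of_neg hneg]
  nlinarith

lemma nrComplexPlaces_cubic : InfinitePlace.nrComplexPlaces Cubic = 1 := by
  have h := sign_discr Cubic
  rw [Int.sign_eq_neg_one_of_neg discr_cubic_neg_and_bound.1] at h
  have h3 := InfinitePlace.card_add_two_mul_card_eq_rank Cubic
  rw [finrank_cubic] at h3
  rcases Nat.eq_zero_or_pos (InfinitePlace.nrComplexPlaces Cubic) with h0 | h0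
  · rw [h0] at h; norm_num at h
  · omega

lemma rank_cubic : Units.rank Cubic = 1 := by
  have h3 := InfinitePlace.card_add_two_mul_card_eq_rank Cubic
  rw [finrank_cubic, nrComplexPlaces_cubic] at h3
  rw [Units.rank, InfinitePlace.card_eq_nrRealPlaces_add_nrComplexPlaces, nrComplexPlaces_cubic]
  omega

instance cubic_isPrincipalIdealRing : IsPrincipalIdealRing (𝓞 Cubic) := by
  apply RingOfIntegers.isPrincipalIdealRing_of_abs_discr_lt
  rw [nrComplexPlaces_cubic, finrank_cubic]
  have h1 : ((|discr Cubic| : ℤ) : ℝ) ≤ 44 := by exact_mod_cast discr_cubic_neg_and_bound.2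
  refine lt_of_le_of_lt h1 ?_
  have hpi := Real.pi_gt_three
  norm_num [Nat.factorial]
  nlinarith

end FermatLib.Descent.Eleven
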