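import Fermat.Agent.Descent.Eleven.CubicLocal

/-!
For coprime `m, d` with `4m³ - 4m²d² + d⁶` a square, `4m - 2d²β` is a square in `ℚ(β)`.
-/

set_option autoImplicit false

namespace FermatLib.Descent.Eleven

open NumberField Module

/-- Norm of the cubic field, integer valued. -/
noncomputable def nm (x : 𝓞 Cubic) : ℤ := Algebra.norm ℤ x

lemma nm_mul (x y : 𝓞 Cubic) : nm (x * y) = nm x * nm y := by simp [nm]

lemma nm_pow (x : 𝓞 Cubic) (k : ℕ) : nm (x ^ k) = nm x ^ k := by simp [nm]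

lemma cast_nm (x : 𝓞 Cubic) : (nm x : ℚ) = Algebra.norm ℚ (x : Cubic) := Algebra.coe_norm_int x

lemma isUnit_iff_nm (x : 𝓞 Cubic) : IsUnit x ↔ |nm x| = 1 := by
  rw [NumberField.isUnit_iff_norm, RingOfIntegers.coe_norm, ← cast_nm]
  exact_mod_cast Iff.rfl

lemma nm_neg_one : nm (-1) = -1 := by
  apply Int.cast_injective (α := ℚ)
  rw [cast_nm]
  simp only [map_neg, map_one]
  rw [← el_one, el_neg, norm_el]
  norm_num

lemma nm_neg (x : 𝓞 Cubic) : nm (-x) = -nm x := by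
  rw [← neg_one_mul, nm_mul, nm_neg_one, neg_one_mul]

lemma nm_eq_zero {x : 𝓞 Cubic} : nm x = 0 ↔ x = 0 := Algebra.norm_eq_zero_iff

lemma nm_bO : nm bO = -2 := by
  apply Int.cast_injective (α := ℚ)
  rw [cast_nm, coe_bO, ← el_beta, norm_el]
  norm_num

lemma nm_etaUnit : nm (etaUnit : 𝓞 Cubic) = 1 := by
  apply Int.cast_injective (α := ℚ)
  rw [cast_nm, coe_etaUnit, norm_el]
  norm_num

/-- The unramified-or-ramified element of norm `11` dividing the different. -/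
noncomputable def eO : 𝓞 Cubic := 3 - 4 * bO + 2 * bO ^ 2

lemma nm_eO : nm eO = 11 := by
  apply Int.cast_injective (α := ℚ)
  rw [cast_nm, show ((eO : 𝓞 Cubic) : Cubic) = el 3 (-4) 2 by simp [eO, el, map_ofNat]; ring,
    norm_el]
  norm_num

lemma prime_of_nm {x : 𝓞 Cubic} {p : ℕ} (hp : p.Prime) (hx : (nm x).natAbs = p) : Prime x := by
  refine Irreducible.prime ⟨fun h => ?_, fun a b hab => ?_⟩
  · rw [isUnit_iff_nm, Int.abs_eq_natAbs, hx] at h
    exact hp.ne_one (by exact_mod_cast h)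
  · rw [hab, nm_mul, Int.natAbs_mul] at hx
    rcases hp.eq_one_or_self_of_dvd _ (Dvd.intro _ hx) with h | h
    · exact Or.inl ((isUnit_iff_nm _).2 (by rw [Int.abs_eq_natAbs, h, Nat.cast_one]))
    · refine Or.inr ((isUnit_iff_nm _).2 ?_)
      rw [h] at hx
      rw [Int.abs_eq_natAbs, Nat.eq_of_mul_eq_mul_left hp.pos (hx.trans (mul_one p).symm),
        Nat.cast_one]

lemma prime_bO : Prime bO := prime_of_nm Nat.prime_two (by rw [nm_bO]; rfl)

lemma prime_eO : Prime eO := prime_of_nm (p := 11) (by norm_num) (by rw [nm_eO]; rfl)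

lemma squareUnit (u : (𝓞 Cubic)ˣ) :
    ∃ v : (𝓞 Cubic)ˣ, u = v ^ 2 ∨ u = -v ^ 2 ∨ u = etaUnit * v ^ 2 ∨ u = -(etaUnit * v ^ 2) := by
  have : Unique (Fin (Units.rank Cubic)) := by rw [rank_cubic]; infer_instance
  have hodd : Odd (finrank ℚ Cubic) := by rw [finrank_cubic]; decide
  have key : ∀ x : (𝓞 Cubic)ˣ, ∃ k : ℤ,
      x = Units.fundSystem Cubic default ^ k ∨ x = -(Units.fundSystem Cubic default ^ k) := by
    intro x
    obtain ⟨⟨⟨ζ, hζ⟩, f⟩, hx, -⟩ := Units.exist_unique_eq_mul_prod Cubic x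
    refine ⟨f default, ?_⟩
    simp only [Fintype.prod_unique] at hx
    rcases Units.torsion_eq_one_or_neg_one_of_odd_finrank hodd ⟨ζ, hζ⟩ with h | h <;>
      simp only at h <;> subst h
    · exact Or.inl (by simpa using hx)
    · exact Or.inr (by simpa using hx)
  obtain ⟨j, hj⟩ := key etaUnit
  obtain ⟨k, hk⟩ := key u
  set g := Units.fundSystem Cubic default
  rcases Int.even_or_odd j with ⟨i, rfl⟩ | ⟨i, rfl⟩
  · exfalso
    have hsq : g ^ (i + i) = (g ^ i) ^ 2 := by rw [zpow_add, sq]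
    rw [hsq] at hj
    rcases hj with h | h
    · exact etaUnit_not_square ↑(g ^ i) (by simpa using congrArg Units.val h)
    · have h1 := congrArg (fun z : (𝓞 Cubic)ˣ => nm (z : 𝓞 Cubic)) h
      simp only [nm_etaUnit, Units.val_neg, nm_neg, Units.val_pow_eq_pow_val, nm_pow] at h1
      nlinarith [sq_nonneg (nm ((g ^ i : (𝓞 Cubic)ˣ) : 𝓞 Cubic))]
  · rcases Int.even_or_odd k with ⟨l, rfl⟩ | ⟨l, rfl⟩
    · refine ⟨g ^ l, ?_⟩
      have hsq : g ^ (l + l) = (g ^ l) ^ 2 := by rw [zpow_add, sq]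
      rw [hsq] at hk
      tauto
    · refine ⟨g ^ (l - i), ?_⟩
      have hsq : g ^ (2 * l + 1) = g ^ (2 * i + 1) * (g ^ (l - i)) ^ 2 := by
        rw [← zpow_natCast (g ^ (l - i)), ← zpow_mul, ← zpow_add]
        congr 1
        push_cast
        ring
      rw [hsq] at hk
      rcases hj with hj | hj
      · rw [← hj] at hk
        tauto
      · rw [show g ^ (2 * i + 1) = -etaUnit by rw [hj, neg_neg]] at hk
        simp only [neg_mul, neg_neg] at hk
        tauto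

/-- `u β^i e^j w²`, the shape of an element with special primes only to odd powers. -/
def IsAlmostSquare (z : 𝓞 Cubic) : Prop :=
  ∃ (u : (𝓞 Cubic)ˣ) (i j : ℕ) (w : 𝓞 Cubic), z = u * bO ^ i * eO ^ j * w ^ 2

lemma almostSquare_of_eq (z : 𝓞 Cubic) : z ≠ 0 → ∀ c C M : 𝓞 Cubic, z * C = c * M ^ 2 →
    (∀ p : 𝓞 Cubic, Prime p → p ∣ c → Associated p bO ∨ Associated p eO) →
    (∀ p : 𝓞 Cubic, Prime p → p ∣ z → p ∣ C → Associated p bO ∨ Associated p eO) →
    IsAlmostSquare z := by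
  induction z using (wellFounded_dvdNotUnit (α := 𝓞 Cubic)).induction with
  | h z ih =>
    intro hz c C M heq hc hcom
    by_cases hu : IsUnit z
    · exact ⟨hu.unit, 0, 0, 1, by simp⟩
    obtain ⟨p, hpi, a, rfl⟩ := WfDvdMonoid.exists_irreducible_factor hu hz
    have hp : Prime p := hpi.prime
    have hpa : a ≠ 0 := right_ne_zero_of_mul hz
    by_cases hs : Associated p bO ∨ Associated p eO
    · obtain ⟨u, i, j, w, hw⟩ := ih a ⟨hpa, p, hp.not_isUnit, mul_comm p a⟩ hpa c (p * C) M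
        (by linear_combination heq) hc fun q hq hqa hqC => by
          rcases hq.dvd_or_dvd hqC with h | h
          · rcases hs with hs | hs
            · exact Or.inl ((hq.associated_of_dvd hp h).trans hs)
            · exact Or.inr ((hq.associated_of_dvd hp h).trans hs)
          · exact hcom q hq (hqa.mul_left p) h
      rcases hs with hs | hs
      · obtain ⟨v, hv⟩ := hs.symm
        exact ⟨v * u, i + 1, j, w, by rw [hw, ← hv, Units.val_mul, pow_succ]; ring⟩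
      · obtain ⟨v, hv⟩ := hs.symm
        exact ⟨v * u, i, j + 1, w, by rw [hw, ← hv, Units.val_mul, pow_succ]; ring⟩
    · have hpC : ¬ p ∣ C := fun h => hs (hcom p hp (dvd_mul_right p a) h)
      have hpc : ¬ p ∣ c := fun h => hs (hc p hp h)
      have hdvd : p ∣ c * M ^ 2 := ⟨a * C, by linear_combination -heq⟩
      obtain ⟨M', rfl⟩ : p ∣ M :=
        hp.dvd_of_dvd_pow ((hp.dvd_or_dvd hdvd).resolve_left hpc)
      have heq' : a * C = p * (c * M' ^ 2) :=
        mul_left_cancel₀ hp.ne_zero (by linear_combination heq)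
      obtain ⟨b, rfl⟩ : p ∣ a := (hp.dvd_or_dvd ⟨c * M' ^ 2, heq'⟩).resolve_right hpC
      have hb : b ≠ 0 := right_ne_zero_of_mul hpa
      obtain ⟨u, i, j, w, hw⟩ := ih b
        ⟨hb, p * p, fun h => hp.not_isUnit (isUnit_of_mul_isUnit_left h), by ring⟩ hb c C M'
        (mul_left_cancel₀ hp.ne_zero (by linear_combination heq')) hc
        fun q hq hqb hqC => hcom q hq ((hqb.mul_left p).mul_left p) hqC
      exact ⟨u, i, j, p * w, by rw [hw]; ring⟩

lemma special_of_dvd_two {p : 𝓞 Cubic} (hp : Prime p) (h : p ∣ 2) : Associated p bO := by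
  have hu : (-(bO ^ 2 - bO - 1) * (bO ^ 2 - 3 * bO + 3)) * bO ^ 3 = 2 := by
    linear_combination (-(bO ^ 4) + 2 * bO ^ 3 - bO ^ 2 - 1) * bO_cube
  rw [← hu] at h
  rcases hp.dvd_or_dvd h with h | h
  · exfalso
    refine hp.not_isUnit (isUnit_of_dvd_unit h (isUnit_iff_exists_inv.2 ⟨bO ^ 2 - 1, ?_⟩))
    linear_combination (-(bO ^ 3) + 2 * bO ^ 2 - 2) * bO_cube
  · exact hp.associated_of_dvd prime_bO (hp.dvd_of_dvd_pow h)

lemma int_nm_sq_cases {i j : ℕ} {M W : ℤ} (hM : M ≠ 0) (hi : i < 2) (hj : j < 2)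
    (h : M ^ 2 = |(-2 : ℤ) ^ i * 11 ^ j * W ^ 2|) : i = 0 ∧ j = 0 := by
  have hW : (W : ℚ) ≠ 0 := by
    rintro hW; rw [Int.cast_eq_zero] at hW; subst hW; simp at h; exact hM h
  rw [abs_mul, abs_mul, abs_pow, abs_pow, abs_pow, sq_abs, abs_neg] at h
  norm_num at h
  have h' : IsSquare (((2 ^ i * 11 ^ j : ℕ) : ℚ)) := by
    refine ⟨M / W, ?_⟩
    field_simp
    exact_mod_cast h.symm
  rw [Rat.isSquare_natCast_iff] at h'
  interval_cases i <;> interval_cases j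
  all_goals first | exact ⟨rfl, rfl⟩ | norm_num at h'

lemma isUnit_of_isCoprime_cast {m d : ℤ} (hco : IsCoprime m d) {p : 𝓞 Cubic}
    (h1 : p ∣ (m : 𝓞 Cubic)) (h2 : p ∣ (d : 𝓞 Cubic)) : IsUnit p :=
  (hco.map (Int.castRingHom (𝓞 Cubic))).isUnit_of_dvd' h1 h2

theorem exists_sq_eq (m d Y : ℤ) (hco : IsCoprime m d) (hd : d ≠ 0)
    (hY : Y ^ 2 = 4 * m ^ 3 - 4 * m ^ 2 * d ^ 2 + d ^ 6) :
    ∃ P Q R : ℚ, el P Q R ^ 2 = el (4 * m) (-2 * d ^ 2) 0 := by
  set z : 𝓞 Cubic := (d : 𝓞 Cubic) ^ 2 + m * (bO ^ 2 - 2 * bO) with hzdef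
  set C₀ : 𝓞 Cubic := 4 * (m : 𝓞 Cubic) ^ 2 + 2 * m * d ^ 2 * (bO - 2) + d ^ 4 * (bO ^ 2 - 2 * bO)
    with hC₀
  have hzK : (z : Cubic) = el ((d : ℚ) ^ 2) (-2 * m) m := by
    simp [hzdef, el, map_ofNat, sub_eq_add_neg]; ring
  have hnz : nm z = Y ^ 2 := by
    apply Int.cast_injective (α := ℚ)
    rw [cast_nm, hzK, norm_el, hY]
    push_cast
    ring
  have hz0 : z ≠ 0 := by
    intro h
    have h' : el 0 0 0 = el ((d : ℚ) ^ 2) (-2 * m) m := by rw [← hzK, h, el_zero]; simp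
    rw [el_inj] at h'
    exact hd (by simpa using h'.1.symm)
  have hY0 : Y ≠ 0 := by
    intro h; rw [h, zero_pow two_ne_zero] at hnz; exact hz0 (nm_eq_zero.1 hnz)
  have hYO : (Y : 𝓞 Cubic) ^ 2 =
      4 * (m : 𝓞 Cubic) ^ 3 - 4 * (m : 𝓞 Cubic) ^ 2 * d ^ 2 + d ^ 6 := by exact_mod_cast hY
  have heq : z * (-(bO * C₀)) = 2 * (Y : 𝓞 Cubic) ^ 2 := by
    rw [hzdef, hC₀, hYO]
    linear_combination (-4 * (m : 𝓞 Cubic) ^ 3 - 2 * m ^ 2 * d ^ 2 * bO + 4 * m ^ 2 * d ^ 2 -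
      m * d ^ 4 * (bO ^ 2 - 2 * bO) - d ^ 6) * bO_cube
  have hcom : ∀ p : 𝓞 Cubic, Prime p → p ∣ z → p ∣ -(bO * C₀) →
      Associated p bO ∨ Associated p eO := by
    intro p hp hpz hpC
    by_cases hs : Associated p bO
    · exact Or.inl hs
    refine Or.inr ?_
    have hpb : ¬ p ∣ bO := fun h => hs (hp.associated_of_dvd prime_bO h)
    have hC : p ∣ C₀ := (hp.dvd_or_dvd (dvd_neg.1 hpC)).resolve_left hpb
    have hw : p ∣ 2 * (m : 𝓞 Cubic) - d ^ 2 * bO := by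
      have hid : -(bO * z) = 2 * (m : 𝓞 Cubic) - d ^ 2 * bO := by
        rw [hzdef]; linear_combination -(m : 𝓞 Cubic) * bO_cube
      rw [← hid]; exact (hpz.mul_left bO).neg_right
    have h3 : p ∣ (d : 𝓞 Cubic) ^ 4 * (bO * (3 * bO - 4)) := by
      have h := dvd_sub hC (hw.mul_right (2 * (m : 𝓞 Cubic) + d ^ 2 * (2 * bO - 2)))
      convert h using 1
      rw [hC₀]; ring
    have hd' : ¬ p ∣ (d : 𝓞 Cubic) := by
      intro h
      have : p ∣ 2 * (m : 𝓞 Cubic) := by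
        have := dvd_add hw ((dvd_pow h two_ne_zero).mul_right bO)
        simpa using this
      rcases hp.dvd_or_dvd this with h2 | hm
      · exact hs (special_of_dvd_two hp h2)
      · exact hp.not_isUnit (isUnit_of_isCoprime_cast hco hm h)
    have h4 : p ∣ 3 * bO - 4 := ((hp.dvd_or_dvd h3).resolve_left
      (fun h => hd' (hp.dvd_of_dvd_pow h)) |> hp.dvd_or_dvd).resolve_left hpb
    have h5 : 3 * bO - 4 = bO * eO := by rw [eO]; linear_combination -2 * bO_cube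
    rw [h5] at h4
    exact hp.associated_of_dvd prime_eO ((hp.dvd_or_dvd h4).resolve_left hpb)
  obtain ⟨u, i, j, w, hw⟩ := almostSquare_of_eq z hz0 2 _ (Y : 𝓞 Cubic) heq
    (fun p hp h => Or.inl (special_of_dvd_two hp h)) hcom
  obtain ⟨i, r, hr, rfl⟩ : ∃ a r, r < 2 ∧ i = 2 * a + r :=
    ⟨i / 2, i % 2, by omega, by omega⟩
  obtain ⟨j, s, hs, rfl⟩ : ∃ a r, r < 2 ∧ j = 2 * a + r :=
    ⟨j / 2, j % 2, by omega, by omega⟩
  have hw' : z = u * bO ^ r * eO ^ s * (bO ^ i * eO ^ j * w) ^ 2 := by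
    rw [hw, pow_add, pow_add, pow_mul', pow_mul']; ring
  obtain ⟨rfl, rfl⟩ : r = 0 ∧ s = 0 := by
    refine int_nm_sq_cases (W := nm (bO ^ i * eO ^ j * w)) hY0 hr hs ?_
    have h := congrArg nm hw'
    simp only [nm_mul, nm_pow, nm_bO, nm_eO, hnz] at h
    rw [← abs_of_nonneg (sq_nonneg Y), h]
    simp only [abs_mul, (isUnit_iff_nm _).1 u.isUnit, one_mul, nm_mul, nm_pow, nm_bO, nm_eO]
  simp only [pow_zero, mul_one] at hw'
  set w' := bO ^ i * eO ^ j * w
  have hpos : 0 < nm z := by rw [hnz]; positivity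
  obtain ⟨v, hv⟩ := squareUnit u
  have hsq : z = (v * w') ^ 2 := by
    rcases hv with rfl | rfl | rfl | rfl
    · rw [hw', Units.val_pow_eq_pow_val]; ring
    · exfalso
      rw [hw', Units.val_neg, Units.val_pow_eq_pow_val] at hpos
      simp only [nm_mul, nm_neg, nm_pow] at hpos
      nlinarith [mul_nonneg (sq_nonneg (nm (v : 𝓞 Cubic))) (sq_nonneg (nm w'))]
    · exfalso
      apply eta_sq_ne_param m d hco (v * w')
      rw [← hzK, hw', Units.val_mul, Units.val_pow_eq_pow_val, ← coe_etaUnit]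
      simp only [map_mul, map_pow]
      ring
    · exfalso
      rw [hw', Units.val_neg, Units.val_mul, Units.val_pow_eq_pow_val] at hpos
      simp only [nm_mul, nm_neg, nm_pow, nm_etaUnit] at hpos
      nlinarith [mul_nonneg (sq_nonneg (nm (v : 𝓞 Cubic))) (sq_nonneg (nm w'))]
  obtain ⟨P, Q, R, hPQR⟩ := exists_el (beta ^ 2 * (beta - 1) * ((v * w' : 𝓞 Cubic) : Cubic))
  refine ⟨P, Q, R, ?_⟩
  have hsq' : (z : Cubic) = ((v * w' : 𝓞 Cubic) : Cubic) ^ 2 := by rw [hsq]; simp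
  rw [← hPQR, mul_pow, ← hsq', hzK]
  simp only [el, map_mul, map_pow, map_neg, map_ofNat, map_intCast, map_zero]
  linear_combination (-2 * (m : Cubic) + beta * (d : Cubic) ^ 2 - 2 * beta ^ 2 * (m : Cubic) +
    beta ^ 3 * (d : Cubic) ^ 2 + beta ^ 3 * (m : Cubic) - 2 * beta ^ 4 * (m : Cubic) +
    beta ^ 5 * (m : Cubic)) * beta_cube

end FermatLib.Descent.Eleven
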