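import Fermat.Agent.Descent.Eleven.CubicSquare

/-!
The curve `11a3`: the only rational `x` for which `4x³ - 4x² + 1` is a square are `0` and `1`.
Proof by 2-descent in the cubic field and descent on the height.
-/

set_option autoImplicit false

namespace FermatLib.Descent.Eleven

/-- A rational solution `x` is the `x`-coordinate of twice another solution. -/
lemma exists_half (m d Y : ℤ) (hco : IsCoprime m d) (hd : d ≠ 0)
    (hY : Y ^ 2 = 4 * m ^ 3 - 4 * m ^ 2 * d ^ 2 + d ^ 6) :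
    ∃ x : ℚ, IsSquare (4 * x ^ 3 - 4 * x ^ 2 + 1) ∧
      (m : ℚ) * (4 * x ^ 3 - 4 * x ^ 2 + 1) = (d : ℚ) ^ 2 * (x ^ 4 - 2 * x + 1) := by
  obtain ⟨P, Q, R, h⟩ := exists_sq_eq m d Y hco hd hY
  have hdq : (d : ℚ) ≠ 0 := Int.cast_ne_zero.2 hd
  have h' := h
  rw [el_sq, el_inj] at h'
  simp only [sqCoord] at h'
  obtain ⟨-, h1, h2⟩ := h'
  have hR : R ≠ 0 := by
    rintro rfl
    have hQ : Q = 0 := by
      have : Q ^ 2 = 0 := by linarith
      simpa using this
    subst hQ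
    simp at h1
    exact hd h1
  set c := (Q + 2 * R) / R with hc
  have hcR : c * R = Q + 2 * R := by rw [hc]; field_simp
  set A := -c * P - 2 * R with hA
  set B := P - c * Q with hB
  have hlin : el P Q R * el (-c) 1 0 = el A B 0 := by
    rw [el_mul, el_inj]
    refine ⟨by rw [hA]; ring, by rw [hB]; ring, by linear_combination -hcR⟩
  have key : el (4 * m) (-2 * d ^ 2) 0 * el (-c) 1 0 ^ 2 = el A B 0 ^ 2 := by
    rw [← h, ← mul_pow, hlin]
  rw [el_sq, el_sq, el_mul, el_inj] at key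
  simp only [sqCoord] at key
  obtain ⟨e0, e1, e2⟩ := key
  refine ⟨c / 2, ⟨(A + B * c) / (2 * d), ?_⟩, ?_⟩
  · field_simp
    linear_combination 2 * e0 + 2 * c * e1 + 2 * c ^ 2 * e2
  · have hprod : 4 * (4 * (m : ℚ) * c ^ 2 + 4 * d ^ 2) * (4 * m + 4 * d ^ 2 * (c - 1)) =
        (-8 * m * c - 2 * d ^ 2 * c ^ 2) ^ 2 := by
      have a0 : A ^ 2 = 4 * m * c ^ 2 + 4 * d ^ 2 := by linear_combination -e0
      have a1 : 2 * A * B = -8 * m * c - 2 * d ^ 2 * c ^ 2 := by linear_combination -e1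
      have a2 : B ^ 2 = 4 * m + 4 * d ^ 2 * (c - 1) := by linear_combination -e2
      rw [← a0, ← a1, ← a2]
      ring
    refine mul_left_cancel₀ (pow_ne_zero 2 hdq) ?_
    linear_combination hprod / 64

/-- Numerator of the duplication map, homogenised. -/
def dupNum (s t : ℤ) : ℤ := s ^ 4 - 2 * s * t ^ 3 + t ^ 4

/-- Denominator of the duplication map, homogenised. -/
def dupDen (s t : ℤ) : ℤ := 4 * s ^ 3 * t - 4 * s ^ 2 * t ^ 2 + t ^ 4

lemma bezout_t (s t : ℤ) :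
    (48 * s ^ 2 * t - 32 * s * t ^ 2 - 16 * t ^ 3) * dupNum s t
      + (-12 * s ^ 3 - 4 * s ^ 2 * t + 27 * t ^ 3) * dupDen s t = 11 * t ^ 7 := by
  simp only [dupNum, dupDen]; ring

lemma bezout_s (s t : ℤ) :
    (11 * s ^ 3 - 20 * s ^ 2 * t + 4 * s * t ^ 2 + 6 * t ^ 3) * dupNum s t
      + (5 * s ^ 3 + 4 * s ^ 2 * t + 8 * s * t ^ 2 - 6 * t ^ 3) * dupDen s t = 11 * s ^ 7 := by
  simp only [dupNum, dupDen]; ring

lemma abs_cubic_le {s t h : ℤ} (hs : |s| ≤ h) (ht : |t| ≤ h) (a b c e : ℤ) :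
    |a * s ^ 3 + b * s ^ 2 * t + c * s * t ^ 2 + e * t ^ 3| ≤
      (|a| + |b| + |c| + |e|) * h ^ 3 := by
  have hh : 0 ≤ h := (abs_nonneg s).trans hs
  have h1 : |a * s ^ 3| ≤ |a| * h ^ 3 := by rw [abs_mul, abs_pow]; gcongr
  have h2 : |b * s ^ 2 * t| ≤ |b| * h ^ 3 := by
    rw [abs_mul, abs_mul, abs_pow, mul_assoc, show h ^ 3 = h ^ 2 * h by ring]; gcongr
  have h3 : |c * s * t ^ 2| ≤ |c| * h ^ 3 := by
    rw [abs_mul, abs_mul, abs_pow, mul_assoc, show h ^ 3 = h * h ^ 2 by ring]; gcongr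
  have h4 : |e * t ^ 3| ≤ |e| * h ^ 3 := by rw [abs_mul, abs_pow]; gcongr
  have i1 := abs_add_le (a * s ^ 3 + b * s ^ 2 * t + c * s * t ^ 2) (e * t ^ 3)
  have i2 := abs_add_le (a * s ^ 3 + b * s ^ 2 * t) (c * s * t ^ 2)
  have i3 := abs_add_le (a * s ^ 3) (b * s ^ 2 * t)
  linarith

lemma dup_height {s t m D H h : ℤ} (hco : IsCoprime s t) (hcomd : IsCoprime m D) (hD : D ≠ 0)
    (heq : m * dupDen s t = D * dupNum s t) (hmH : |m| ≤ H) (hDH : |D| ≤ H)
    (hs : |s| ≤ h) (ht : |t| ≤ h) (hh : |s| = h ∨ |t| = h) (hpos : 0 < h) :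
    h ^ 4 ≤ 139 * H := by
  have hH : 0 ≤ H := (abs_nonneg m).trans hmH
  obtain ⟨g, hg⟩ : D ∣ dupDen s t :=
    (IsCoprime.symm hcomd).dvd_of_dvd_mul_left ⟨dupNum s t, by linear_combination heq⟩
  have hN : dupNum s t = m * g := by
    refine mul_left_cancel₀ hD ?_
    linear_combination -heq + m * hg
  have hg11 : g ∣ 11 := by
    obtain ⟨u, v, huv⟩ := hco.pow (m := 7) (n := 7)
    have hs7 : g ∣ 11 * s ^ 7 := by
      rw [← bezout_s s t, hN, hg]
      exact dvd_add (dvd_mul_of_dvd_right (dvd_mul_left g m) _)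
        (dvd_mul_of_dvd_right (dvd_mul_left g D) _)
    have ht7 : g ∣ 11 * t ^ 7 := by
      rw [← bezout_t s t, hN, hg]
      exact dvd_add (dvd_mul_of_dvd_right (dvd_mul_left g m) _)
        (dvd_mul_of_dvd_right (dvd_mul_left g D) _)
    have : g ∣ u * (11 * s ^ 7) + v * (11 * t ^ 7) :=
      dvd_add (hs7.mul_left u) (ht7.mul_left v)
    rwa [show u * (11 * s ^ 7) + v * (11 * t ^ 7) = 11 by linear_combination 11 * huv] at this
  have hgle : |g| ≤ 11 := Int.le_of_dvd (by norm_num) ((abs_dvd g 11).2 hg11)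
  have hNle : |dupNum s t| ≤ 11 * H := by
    rw [hN, abs_mul, mul_comm 11 H]; gcongr
  have hDle : |dupDen s t| ≤ 11 * H := by
    rw [hg, abs_mul, mul_comm 11 H]; gcongr
  have main : 11 * h ^ 7 ≤ 139 * h ^ 3 * (11 * H) := by
    rcases hh with hh | hh
    · have e := congrArg abs (bezout_s s t)
      rw [abs_mul, abs_pow, hh, abs_of_pos (by norm_num : (0 : ℤ) < 11)] at e
      rw [← e]
      have a : |11 * s ^ 3 - 20 * s ^ 2 * t + 4 * s * t ^ 2 + 6 * t ^ 3| ≤ 41 * h ^ 3 :=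
        (le_of_eq (congrArg abs (by ring))).trans
          ((abs_cubic_le hs ht 11 (-20) 4 6).trans (le_of_eq (by norm_num)))
      have b : |5 * s ^ 3 + 4 * s ^ 2 * t + 8 * s * t ^ 2 - 6 * t ^ 3| ≤ 23 * h ^ 3 :=
        (le_of_eq (congrArg abs (by ring))).trans
          ((abs_cubic_le hs ht 5 4 8 (-6)).trans (le_of_eq (by norm_num)))
      refine (abs_add_le _ _).trans ?_
      rw [abs_mul, abs_mul]
      calc _ ≤ (41 * h ^ 3) * (11 * H) + (23 * h ^ 3) * (11 * H) := by gcongr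
        _ ≤ _ := by nlinarith [mul_nonneg (pow_nonneg hpos.le 3) hH]
    · have e := congrArg abs (bezout_t s t)
      rw [abs_mul, abs_pow, hh, abs_of_pos (by norm_num : (0 : ℤ) < 11)] at e
      rw [← e]
      have a : |48 * s ^ 2 * t - 32 * s * t ^ 2 - 16 * t ^ 3| ≤ 96 * h ^ 3 :=
        (le_of_eq (congrArg abs (by ring))).trans
          ((abs_cubic_le hs ht 0 48 (-32) (-16)).trans (le_of_eq (by norm_num)))
      have b : |-12 * s ^ 3 - 4 * s ^ 2 * t + 27 * t ^ 3| ≤ 43 * h ^ 3 :=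
        (le_of_eq (congrArg abs (by ring))).trans
          ((abs_cubic_le hs ht (-12) (-4) 0 27).trans (le_of_eq (by norm_num)))
      refine (abs_add_le _ _).trans ?_
      rw [abs_mul, abs_mul]
      calc _ ≤ (96 * h ^ 3) * (11 * H) + (43 * h ^ 3) * (11 * H) := by gcongr
        _ = _ := by ring
  have h3 : 0 < h ^ 3 := pow_pos hpos 3
  nlinarith

/-- The height of a rational number. -/
def ht (x : ℚ) : ℕ := max x.num.natAbs x.den

lemma exists_den_sq {x : ℚ} (h : IsSquare (4 * x ^ 3 - 4 * x ^ 2 + 1)) :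
    ∃ d Y : ℤ, 0 < d ∧ (x.den : ℤ) = d ^ 2 ∧
      Y ^ 2 = 4 * x.num ^ 3 - 4 * x.num ^ 2 * d ^ 2 + d ^ 6 := by
  obtain ⟨Z, hZ⟩ := h
  set y := (Z - 1) / 2 with hy
  have hcurve : y * (y + 1) = x ^ 3 - x ^ 2 := by rw [hy]; linear_combination -hZ / 4
  set p := x.num
  set q := (x.den : ℤ) with hq
  set a := y.num
  set b := (y.den : ℤ) with hb
  have hq0 : 0 < q := by rw [hq]; exact_mod_cast x.pos
  have hb0 : 0 < b := by rw [hb]; exact_mod_cast y.pos
  have hxv : x = (p : ℚ) / q := by rw [hq]; exact_mod_cast x.num_div_den.symm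
  have hyv : y = (a : ℚ) / b := by rw [hb]; exact_mod_cast y.num_div_den.symm
  have hpq : IsCoprime p q := Int.isCoprime_iff_nat_coprime.2 x.reduced
  have hab : IsCoprime a b := Int.isCoprime_iff_nat_coprime.2 y.reduced
  have heq : a * (a + b) * q ^ 3 = (p ^ 3 - p ^ 2 * q) * b ^ 2 := by
    have hqne : (q : ℚ) ≠ 0 := Int.cast_ne_zero.2 hq0.ne'
    have hbne : (b : ℚ) ≠ 0 := Int.cast_ne_zero.2 hb0.ne'
    rw [hxv, hyv] at hcurve
    field_simp at hcurve
    have : ((a * (a + b) * q ^ 3 : ℤ) : ℚ) = ((p ^ 3 - p ^ 2 * q) * b ^ 2 : ℤ) := by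
      push_cast
      linear_combination hcurve
    exact_mod_cast this
  have h1 : IsCoprime (q ^ 3) (p ^ 3 - p ^ 2 * q) := by
    have : IsCoprime q (p ^ 3 + q * -p ^ 2) := (hpq.symm.pow_right).add_mul_left_right _
    rw [show p ^ 3 - p ^ 2 * q = p ^ 3 + q * -p ^ 2 by ring]
    exact this.pow_left
  have h2 : IsCoprime (b ^ 2) (a * (a + b)) := by
    refine IsCoprime.pow_left (hab.symm.mul_right ?_)
    simpa using hab.symm.add_mul_left_right 1
  have d1 : q ^ 3 ∣ b ^ 2 := h1.dvd_of_dvd_mul_left ⟨a * (a + b), by linear_combination -heq⟩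
  have d2 : b ^ 2 ∣ q ^ 3 :=
    h2.dvd_of_dvd_mul_left ⟨p ^ 3 - p ^ 2 * q, by linear_combination heq⟩
  have hqb : q ^ 3 = b ^ 2 := Int.dvd_antisymm (by positivity) (by positivity) d1 d2
  obtain ⟨k, hk⟩ : q ∣ b :=
    (Int.pow_dvd_pow_iff two_ne_zero).1 ⟨q, by rw [← hqb]; ring⟩
  have hkq : q = k ^ 2 := mul_left_cancel₀ (pow_ne_zero 2 hq0.ne') (by rw [hk] at hqb; linear_combination hqb)
  have hk0 : 0 < k := pos_of_mul_pos_right (hk ▸ hb0) hq0.le
  refine ⟨k, 2 * a + b, hk0, hkq, ?_⟩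
  refine mul_left_cancel₀ (pow_ne_zero 3 hq0.ne') ?_
  rw [show k ^ 6 = (k ^ 2) ^ 3 by ring, ← hkq]
  linear_combination 4 * heq - (4 * p ^ 3 - 4 * p ^ 2 * q + q ^ 3) * hqb

lemma dup_rat_to_int {x x' : ℚ} {d : ℤ}
    (h : (x.num : ℚ) * (4 * x' ^ 3 - 4 * x' ^ 2 + 1) = (d : ℚ) ^ 2 * (x' ^ 4 - 2 * x' + 1)) :
    x.num * dupDen x'.num x'.den = d ^ 2 * dupNum x'.num x'.den := by
  have ht : (x'.den : ℚ) ≠ 0 := Nat.cast_ne_zero.2 x'.den_nz
  rw [← x'.num_div_den] at h
  field_simp at h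
  rw [← Int.cast_inj (α := ℚ)]
  simp only [dupNum, dupDen]
  push_cast
  linear_combination h

/-- **The curve `y² + y = x³ - x²` has only the trivial rational points.** -/
theorem eq_zero_or_one_of_isSquare (x : ℚ) (h : IsSquare (4 * x ^ 3 - 4 * x ^ 2 + 1)) :
    x = 0 ∨ x = 1 := by
  suffices H : ∀ n : ℕ, ∀ x : ℚ, ht x = n → IsSquare (4 * x ^ 3 - 4 * x ^ 2 + 1) → x = 0 ∨ x = 1 from
    H _ x rfl h
  intro n
  induction n using Nat.strong_induction_on with
  | _ n ih =>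
  rintro x rfl hx
  obtain ⟨d, Y, hd0, hd, hY⟩ := exists_den_sq hx
  have hco : IsCoprime x.num (d ^ 2) := hd ▸ Int.isCoprime_iff_nat_coprime.2 x.reduced
  obtain ⟨x', hx', hdup⟩ := exists_half x.num d Y
    ((IsCoprime.pow_right_iff two_pos).1 hco) hd0.ne' hY
  have hint := dup_rat_to_int hdup
  by_cases hlt : ht x' < ht x
  · rcases ih _ hlt x' rfl hx' with rfl | rfl
    · right
      simp [dupNum, dupDen] at hint
      rw [← Rat.num_div_den x, hint, show ((x.den : ℕ) : ℚ) = ((d ^ 2 : ℤ) : ℚ) by rw [← hd]; simp]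
      push_cast
      field_simp
    · left
      simp [dupNum, dupDen] at hint
      exact hint
  · have hb := dup_height (h := (ht x' : ℤ)) (H := (ht x : ℤ))
      (Int.isCoprime_iff_nat_coprime.2 (by simpa using x'.reduced)) hco
      (pow_ne_zero 2 hd0.ne') hint
      (by rw [Int.abs_eq_natAbs]; exact_mod_cast le_max_left _ _)
      (by rw [← hd, abs_of_nonneg (by positivity)]; exact_mod_cast le_max_right _ _)
      (by rw [Int.abs_eq_natAbs]; exact_mod_cast le_max_left _ _)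
      (by rw [abs_of_nonneg (by positivity)]; exact_mod_cast le_max_right _ _)
      (by
        rw [Int.abs_eq_natAbs, abs_of_nonneg (by positivity)]
        rcases max_choice x'.num.natAbs x'.den with h | h
        · exact Or.inl (by exact_mod_cast h.symm)
        · exact Or.inr (by exact_mod_cast h.symm))
      (by exact_mod_cast lt_of_lt_of_le x'.pos (le_max_right _ _))
    have hn : ht x ≤ 5 := by
      by_contra hgt
      push Not at hgt hlt
      have h1 : (ht x : ℤ) ^ 4 ≤ 139 * ht x :=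
        le_trans (by gcongr) hb
      have h2 : (6 : ℤ) ≤ ht x := by exact_mod_cast hgt
      nlinarith [pow_le_pow_left₀ (by norm_num) h2 3, mul_le_mul_of_nonneg_left
        (pow_le_pow_left₀ (by norm_num) h2 3) (by positivity : (0 : ℤ) ≤ ht x)]
    have hp : x.num.natAbs ≤ 5 := (le_max_left _ _).trans hn
    have hq : (x.den : ℤ) ≤ 5 := by exact_mod_cast (le_max_right _ _).trans hn
    have hd2 : d ≤ 2 := by nlinarith
    have hY' : IsSquare (4 * x.num ^ 3 - 4 * x.num ^ 2 * d ^ 2 + d ^ 6) := ⟨Y, by rw [← hY]; ring⟩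
    have hlo : -5 ≤ x.num := by omega
    have hhi : x.num ≤ 5 := by omega
    have hxe : x = (x.num : ℚ) / (d : ℚ) ^ 2 := by
      conv_lhs => rw [← Rat.num_div_den x]
      rw [show ((x.den : ℕ) : ℚ) = ((d ^ 2 : ℤ) : ℚ) by rw [← hd]; simp]
      push_cast; rfl
    obtain ⟨m, hm⟩ : ∃ m, x.num = m := ⟨_, rfl⟩
    rw [hm] at hY' hlo hhi hxe hco
    clear hb hn hp hq hint hdup hY hd hm hlt hx ih
    subst hxe
    interval_cases d <;> interval_cases m <;>
      first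
        | (norm_num; done)
        | (exfalso; revert hY'; norm_num)

end FermatLib.Descent.Eleven
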