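import Fermat.Agent.EC.RedVarChange
import Fermat.Agent.Descent.Eleven.Descent

/-!
No elliptic curve over `ℚ` has a rational point of order `11`: Tate normal form, the equation
`r² - rs³ + 3rs² - 4rs + s = 0` of `X₁(11)` and its map to `y² + y = x³ - x²`.
-/

set_option autoImplicit false

namespace FermatLib.Descent.Eleven

open WeierstrassCurve

variable {W : WeierstrassCurve ℚ}

/-- The chord construction, with the slope given by a linear condition. -/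
lemma add_chord {x₁ y₁ x₂ y₂ x₃ y₃ : ℚ} (ℓ : ℚ) {h₁ : W.toAffine.Nonsingular x₁ y₁}
    {h₂ : W.toAffine.Nonsingular x₂ y₂} (hx : x₁ ≠ x₂) (hℓ : ℓ * (x₁ - x₂) = y₁ - y₂)
    (h₃x : x₃ = ℓ ^ 2 + W.a₁ * ℓ - W.a₂ - x₁ - x₂)
    (h₃y : y₃ = -(ℓ * (x₃ - x₁) + y₁) - W.a₁ * x₃ - W.a₃) :
    ∃ h₃ : W.toAffine.Nonsingular x₃ y₃,
      (.some x₁ y₁ h₁ : W.toAffine.Point) + .some x₂ y₂ h₂ = .some x₃ y₃ h₃ := by
  have hn : ¬(x₁ = x₂ ∧ y₁ = W.toAffine.negY x₂ y₂) := fun h => hx h.1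
  have hs : W.toAffine.slope x₁ x₂ y₁ y₂ = ℓ := by
    rw [Affine.slope_of_X_ne hx, ← hℓ, mul_div_assoc, div_self (sub_ne_zero.2 hx), mul_one]
  have ex : W.toAffine.addX x₁ x₂ ℓ = x₃ := by rw [h₃x, Affine.addX]
  have ey : W.toAffine.addY x₁ x₂ y₁ ℓ = y₃ := by
    rw [h₃y, Affine.addY, Affine.negAddY, ex, Affine.negY]
  subst ex ey hs
  exact ⟨_, Affine.Point.add_some hn⟩

/-- The tangent construction. -/
lemma add_tangent {x₁ y₁ x₃ y₃ : ℚ} (ℓ : ℚ) {h₁ : W.toAffine.Nonsingular x₁ y₁}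
    (hd : 2 * y₁ + W.a₁ * x₁ + W.a₃ ≠ 0)
    (hℓ : ℓ * (2 * y₁ + W.a₁ * x₁ + W.a₃) =
      3 * x₁ ^ 2 + 2 * W.a₂ * x₁ + W.a₄ - W.a₁ * y₁)
    (h₃x : x₃ = ℓ ^ 2 + W.a₁ * ℓ - W.a₂ - 2 * x₁)
    (h₃y : y₃ = -(ℓ * (x₃ - x₁) + y₁) - W.a₁ * x₃ - W.a₃) :
    ∃ h₃ : W.toAffine.Nonsingular x₃ y₃,
      (.some x₁ y₁ h₁ : W.toAffine.Point) + .some x₁ y₁ h₁ = .some x₃ y₃ h₃ := by
  have hy : y₁ ≠ W.toAffine.negY x₁ y₁ := by
    rw [Affine.negY]; intro h; exact hd (by linear_combination h)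
  have hn : ¬(x₁ = x₁ ∧ y₁ = W.toAffine.negY x₁ y₁) := fun h => hy h.2
  have hs : W.toAffine.slope x₁ x₁ y₁ y₁ = ℓ := by
    rw [Affine.slope_of_Y_ne rfl hy, Affine.negY, div_eq_iff (by
      intro h; exact hd (by linear_combination h))]
    linear_combination -hℓ
  have ex : W.toAffine.addX x₁ x₁ ℓ = x₃ := by rw [h₃x, Affine.addX]; ring
  have ey : W.toAffine.addY x₁ x₁ y₁ ℓ = y₃ := by
    rw [h₃y, Affine.addY, Affine.negAddY, ex, Affine.negY]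
  subst ex ey hs
  exact ⟨_, Affine.Point.add_some hn⟩

lemma two_nsmul_ne_zero_iff {x y : ℚ} {h : W.toAffine.Nonsingular x y}
    (h2 : (2 : ℕ) • (.some x y h : W.toAffine.Point) ≠ 0) :
    2 * y + W.a₁ * x + W.a₃ ≠ 0 := by
  intro hd
  apply h2
  rw [two_nsmul, Affine.Point.add_of_Y_eq rfl]
  rw [Affine.negY]
  linear_combination hd

/-- Two points with the same abscissa are equal or opposite. -/
lemma eq_or_eq_neg {x y₁ y₂ : ℚ} {h₁ : W.toAffine.Nonsingular x y₁}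
    {h₂ : W.toAffine.Nonsingular x y₂} :
    (.some x y₁ h₁ : W.toAffine.Point) = .some x y₂ h₂ ∨
      (.some x y₁ h₁ : W.toAffine.Point) = -(.some x y₂ h₂) := by
  rcases Affine.Y_eq_of_X_eq h₁.1 h₂.1 rfl with h | h
  · exact Or.inl (by subst h; rfl)
  · exact Or.inr (by subst h; rfl)

/-- No point of order `11` at `(0, 0)` on a curve in Tate normal form. -/
lemma tate_no_eleven (a₄0 : W.a₄ = 0) (ha₂₃ : W.a₂ = W.a₃) (ha₃ : W.a₃ ≠ 0)
    {h₀ : W.toAffine.Nonsingular 0 0}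
    (h : addOrderOf (.some 0 0 h₀ : W.toAffine.Point) = 11) : False := by
  set T : W.toAffine.Point := .some 0 0 h₀
  obtain ⟨b, hb3⟩ : ∃ b, W.a₃ = -b := ⟨-W.a₃, (neg_neg _).symm⟩
  obtain ⟨c, hc1⟩ : ∃ c, W.a₁ = 1 - c := ⟨1 - W.a₁, by ring⟩
  have hb2 : W.a₂ = -b := ha₂₃.trans hb3
  have hb : b ≠ 0 := by rintro rfl; exact ha₃ (by simpa using hb3)
  have hk : ∀ k : ℕ, 0 < k → k < 11 → k • T ≠ 0 := fun k h1 h2 =>
    nsmul_ne_zero_of_lt_addOrderOf h1.ne' (h.symm ▸ h2)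
  have h11 : (11 : ℕ) • T = 0 := h ▸ addOrderOf_nsmul_eq_zero T
  obtain ⟨n₂, e₂⟩ := add_tangent (W := W) (h₁ := h₀) (x₃ := b) (y₃ := b * c) 0
    (by simpa [hb3] using hb) (by simp [a₄0]) (by simp [hb2]) (by rw [hc1, hb3]; ring)
  have e₂' : (2 : ℕ) • T = .some b (b * c) n₂ := by rw [two_nsmul]; exact e₂
  have hb0 : b ≠ 0 := hb
  obtain ⟨n₃, e₃⟩ := add_chord (W := W) (h₁ := n₂) (h₂ := h₀) (x₃ := c) (y₃ := b - c) c hb0
    (by ring) (by rw [hc1, hb2]; ring) (by rw [hc1, hb3]; ring)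
  have e₃' : (3 : ℕ) • T = .some c (b - c) n₃ := by rw [succ_nsmul, e₂']; exact e₃
  have hc : c ≠ 0 := by
    rintro rfl
    rcases eq_or_eq_neg (h₁ := n₃) (h₂ := h₀) with he | he
    · rw [← e₃'] at he
      exact hk 2 (by norm_num) (by norm_num)
        (add_right_cancel (b := T) (by rw [← succ_nsmul, zero_add]; exact he))
    · rw [← e₃'] at he
      exact hk 4 (by norm_num) (by norm_num)
        (by rw [succ_nsmul, he]; exact neg_add_cancel T)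
  have hbc : b ≠ c := by
    rintro rfl
    rcases eq_or_eq_neg (h₁ := n₃) (h₂ := n₂) with he | he
    · rw [← e₂', ← e₃'] at he
      refine hk 1 one_pos (by norm_num) (add_left_cancel (a := (2 : ℕ) • T) ?_)
      rw [← add_nsmul, add_zero]
      exact he
    · rw [← e₂', ← e₃'] at he
      refine hk 5 (by norm_num) (by norm_num) ?_
      rw [show (5 : ℕ) = 3 + 2 by rfl, add_nsmul, he, neg_add_cancel]
  obtain ⟨r, rfl⟩ : ∃ r, b = r * c := ⟨b / c, by field_simp⟩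
  have hr : r ≠ 0 := left_ne_zero_of_mul hb
  have hr1 : r ≠ 1 := fun h1 => hbc (by rw [h1, one_mul])
  obtain ⟨n₄, e₄⟩ := add_chord (W := W) (h₁ := n₃) (h₂ := h₀) (x₃ := r * (r - 1))
    (y₃ := r ^ 2 * (c - r + 1)) (r - 1) hc (by ring) (by rw [hc1, hb2]; ring)
    (by rw [hc1, hb3]; ring)
  have e₄' : (4 : ℕ) • T = .some _ _ n₄ := by rw [succ_nsmul, e₃']; exact e₄
  have hD : 2 * (r ^ 2 * (c - r + 1)) + W.a₁ * (r * (r - 1)) + W.a₃ ≠ 0 :=
    two_nsmul_ne_zero_iff (h := n₄) (by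
      rw [← e₄', ← mul_nsmul]; exact hk 8 (by norm_num) (by norm_num))
  obtain ⟨s, rfl⟩ : ∃ s, c = s * (r - 1) := ⟨c / (r - 1), by field_simp [sub_ne_zero.2 hr1]⟩
  have hs : s ≠ 0 := left_ne_zero_of_mul hc
  have hden : r * s - 2 * r + 1 ≠ 0 := by
    intro h0
    apply hD
    rw [hc1, hb3]
    linear_combination (r * (r - 1)) * h0
  set num := r * ((r - 1) * (s ^ 2 - 3 * s + 3) - (s - 1)) with hnum
  obtain ⟨n₈, e₈⟩ := add_tangent (W := W) (h₁ := n₄) (num / (r * s - 2 * r + 1)) hD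
    (by rw [div_mul_eq_mul_div, div_eq_iff hden, hnum, a₄0, hc1, hb2, hb3]; ring) rfl rfl
  have h38 : (8 : ℕ) • T = -((3 : ℕ) • T) := by
    rw [eq_neg_iff_add_eq_zero, ← add_nsmul]; exact h11
  rw [show (8 : ℕ) = 4 + 4 by rfl, add_nsmul, e₄', e₈, e₃', Affine.Point.neg_some,
    Affine.Point.some.injEq] at h38
  have hx := h38.1
  rw [hc1, hb2] at hx
  have hL : num / (r * s - 2 * r + 1) * (r * s - 2 * r + 1) = num := div_mul_cancel₀ _ hden
  clear h38 e₈ n₈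
  set L := num / (r * s - 2 * r + 1)
  have hR : (r - 1) ^ 2 * (r ^ 2 - r * s ^ 3 + 3 * r * s ^ 2 - 4 * r * s + s) = 0 := by
    rw [hnum] at hL
    linear_combination (r * s - 2 * r + 1) ^ 2 * hx
      - (L * (r * s - 2 * r + 1) + r * ((r - 1) * (s ^ 2 - 3 * s + 3) - (s - 1))
          + (1 - s * (r - 1)) * (r * s - 2 * r + 1)) * hL
  have hrel := (mul_eq_zero.1 hR).resolve_left (pow_ne_zero 2 (sub_ne_zero.2 hr1))
  have hs1 : s ≠ 1 := by
    rintro rfl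
    exact hr1 (sub_eq_zero.1 (pow_eq_zero_iff two_ne_zero |>.1
      (by linear_combination hrel : (r - 1) ^ 2 = 0)))
  set x := 1 - s with hxdef
  have hx0 : x ≠ 0 := sub_ne_zero.2 hs1.symm
  set y := (r - 1) / x with hydef
  have hrxy : r = 1 + x * y := by rw [hydef]; field_simp; ring
  have hq : y ^ 2 + y + x ^ 2 * y + x = 0 := by
    refine mul_left_cancel₀ (pow_ne_zero 2 hx0) ?_
    rw [mul_zero, ← hrel, hrxy, show s = 1 - x by rw [hxdef]; ring]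
    ring
  set v := y + x ^ 2 + 1 with hv
  rcases eq_zero_or_one_of_isSquare v ⟨2 * x * v - 1, by
      rw [hv]; linear_combination (4 * (y + x ^ 2 + 1)) * hq⟩ with h0 | h1
  · exact hx0 (by rw [hv] at h0; linear_combination hq - y * h0)
  · have hx1 : x * (1 - x) = 0 := by rw [hv] at h1; linear_combination hq - (y + 1) * h1
    rcases mul_eq_zero.1 hx1 with hh | hh
    · exact hx0 hh
    · exact hs (by rw [hxdef] at hh; linear_combination hh)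

/-- **No elliptic curve over `ℚ` has a rational point of order `11`.** -/
theorem addOrderOf_ne_eleven (V : WeierstrassCurve ℚ) (T : V.toAffine.Point) :
    addOrderOf T ≠ 11 := by
  intro h
  rcases T with _ | ⟨x₀, y₀, h₀⟩
  · rw [show (Affine.Point.zero : V.toAffine.Point) = 0 from rfl, addOrderOf_zero] at h
    norm_num at h
  have hk : ∀ k : ℕ, 0 < k → k < 11 → k • (Affine.Point.some x₀ y₀ h₀) ≠ 0 := fun k h1 h2 =>
    nsmul_ne_zero_of_lt_addOrderOf h1.ne' (h.symm ▸ h2)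
  have hd := two_nsmul_ne_zero_iff (hk 2 (by norm_num) (by norm_num))
  set ℓ := (3 * x₀ ^ 2 + 2 * V.a₂ * x₀ + V.a₄ - V.a₁ * y₀) / (2 * y₀ + V.a₁ * x₀ + V.a₃)
  have hℓ : ℓ * (2 * y₀ + V.a₁ * x₀ + V.a₃) =
      3 * x₀ ^ 2 + 2 * V.a₂ * x₀ + V.a₄ - V.a₁ * y₀ := div_mul_cancel₀ _ hd
  set A₂ := V.a₂ + 3 * x₀ - ℓ ^ 2 - V.a₁ * ℓ with hA₂
  have hA : A₂ ≠ 0 := by
    intro hA
    obtain ⟨n₂, e₂⟩ := add_tangent (W := V) (h₁ := h₀) (x₃ := x₀)
      (y₃ := -(ℓ * (x₀ - x₀) + y₀) - V.a₁ * x₀ - V.a₃) ℓ hd hℓ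
      (by rw [hA₂] at hA; linear_combination hA) rfl
    refine hk 3 (by norm_num) (by norm_num) ?_
    rw [succ_nsmul, two_nsmul, e₂, Affine.Point.add_of_Y_eq rfl]
    rw [Affine.negY]; ring
  set A₃ := 2 * y₀ + V.a₁ * x₀ + V.a₃ with hA₃
  set C : VariableChange ℚ := ⟨Units.mk0 (A₃ / A₂) (div_ne_zero hd hA), x₀, ℓ, y₀⟩ with hC
  have h2 : (C • V).a₂ = (C • V).a₃ := by
    simp only [variableChange_a₂, variableChange_a₃, hC, Units.val_inv_eq_inv_val, Units.val_mk0]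
    rw [hA₃] at hd ⊢
    field_simp
    rw [hA₂]; ring
  have h3 : (C • V).a₃ ≠ 0 := by
    simp only [variableChange_a₃, hC, Units.val_inv_eq_inv_val, Units.val_mk0]
    refine mul_ne_zero (pow_ne_zero 3 (inv_ne_zero (div_ne_zero hd hA))) ?_
    intro h'; exact hd (by rw [hA₃]; linear_combination h')
  have h4 : (C • V).a₄ = 0 := by
    simp only [variableChange_a₄, hC]
    refine mul_eq_zero_of_right _ ?_
    linear_combination hℓ * (-1 : ℚ)
  have hn : (C • V).toAffine.Nonsingular 0 0 :=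
    (EC.vc_nonsingular_iff V C 0 0).1 (by simpa [EC.vcX, EC.vcY, hC] using h₀)
  have he : (EC.vcEquiv V C) (.some 0 0 hn) = .some x₀ y₀ h₀ := by
    simp [EC.vcX, EC.vcY, hC]
  refine tate_no_eleven h4 h2 h3 (h₀ := hn) ?_
  rw [← h, ← he]
  exact (AddEquiv.addOrderOf_eq _ _).symm

end FermatLib.Descent.Eleven
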